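import Mathlib
import Fermat.Prelude.Def_GaloisRep_Residual

set_option autoImplicit false

open scoped TensorProduct

namespace Fermat.Agent.S53.H34

variable {k : Type} [Field k]

local notation "GQ" => (AlgebraicClosure ℚ ≃ₐ[ℚ] AlgebraicClosure ℚ)

/-- Injectivity of `v ↦ 1 ⊗ v` for a field extension. -/
theorem tmul_one_injective (K : Type) [Field K] [Algebra k K] (V : Type) [AddCommGroup V]
    [Module k V] : Function.Injective (fun v : V => (1 : K) ⊗ₜ[k] v) :=
  Module.FaithfullyFlat.tensorProduct_mk_injective (A := k) (B := K) V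

/-- An endomorphism of a `k`-vector space whose base change to an extension field `K` is a
scalar `μ` is itself a scalar. -/
theorem eq_smul_one_of_baseChange_eq_smul_one (K : Type) [Field K] [Algebra k K]
    {V : Type} [AddCommGroup V] [Module k V] [Module.Finite k V] [Nontrivial V]
    (f : Module.End k V) (μ : K)
    (hμ : f.baseChange K = μ • (1 : Module.End K (K ⊗[k] V))) :
    ∃ c : k, f = c • (1 : Module.End k V) := by
  classical
  let b := Module.Free.chooseBasis k V
  obtain ⟨i⟩ : Nonempty (Module.Free.ChooseBasisIndex k V) := b.index_nonempty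
  set c : k := b.repr (f (b i)) i with hc
  refine ⟨c, ?_⟩
  have hbc : ∀ w : V, (1 : K) ⊗ₜ[k] f w = μ • ((1 : K) ⊗ₜ[k] w) := by
    intro w
    have := congrArg (fun g : Module.End K (K ⊗[k] V) => g ((1 : K) ⊗ₜ[k] w)) hμ
    simpa [LinearMap.baseChange_tmul] using this
  have hμc : μ = algebraMap k K c := by
    have h1 := congrArg (fun z => (b.baseChange K).repr z i) (hbc (b i))
    simp only [Module.Basis.baseChange_repr_tmul, map_smul, Finsupp.smul_apply,
      Module.Basis.repr_self, Finsupp.single_eq_same, smul_eq_mul] at h1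
    rw [hc]
    simpa [Algebra.smul_def] using h1.symm
  apply LinearMap.ext
  intro w
  apply tmul_one_injective (k := k) K V
  show (1 : K) ⊗ₜ[k] f w = (1 : K) ⊗ₜ[k] ((c • (1 : Module.End k V)) w)
  rw [hbc w, hμc, LinearMap.smul_apply, Module.End.one_apply, TensorProduct.tmul_smul]
  exact algebraMap_smul K c _

theorem nontrivial_V (ρ : ResidualGaloisRep k) : Nontrivial ρ.V :=
  Module.nontrivial_of_finrank_pos (R := k) (by rw [ρ.finrank_eq]; norm_num)

/-- **Schur's lemma** for an absolutely irreducible residual representation: an endomorphism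
commuting with the Galois action is a scalar (already over the ground field `k`). -/
theorem schur (ρ : ResidualGaloisRep k) (h : ρ.IsAbsolutelyIrreducible)
    (f : Module.End k ρ.V) (hf : ∀ σ, f * ρ.ρ σ = ρ.ρ σ * f) :
    ∃ c : k, f = c • (1 : Module.End k ρ.V) := by
  classical
  let K := AlgebraicClosure k
  have : Nontrivial ρ.V := nontrivial_V ρ
  have : Nontrivial (ρ.baseChange K).V := nontrivial_V (ρ.baseChange K)
  let fK : Module.End K (ρ.baseChange K).V := f.baseChange K
  obtain ⟨μ, hμ⟩ := Module.End.exists_eigenvalue fK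
  have hstable : ∀ σ : AlgebraicClosure ℚ ≃ₐ[ℚ] AlgebraicClosure ℚ,
      ∀ x ∈ fK.eigenspace μ, (ρ.baseChange K).ρ σ x ∈ fK.eigenspace μ := by
    intro σ x hx
    rw [Module.End.mem_eigenspace_iff] at hx ⊢
    have hcomm : fK ((ρ.baseChange K).ρ σ x) = (ρ.baseChange K).ρ σ (fK x) := by
      have h1 : (f * ρ.ρ σ).baseChange K = (ρ.ρ σ * f).baseChange K := by rw [hf σ]
      rw [LinearMap.baseChange_mul, LinearMap.baseChange_mul] at h1
      exact congrArg (fun g : Module.End K (K ⊗[k] ρ.V) => g x) h1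
    rw [hcomm, hx, map_smul]
  have htop : fK.eigenspace μ = ⊤ := by
    rcases h (fK.eigenspace μ) hstable with h0 | h1
    · exact absurd h0 hμ
    · exact h1
  apply eq_smul_one_of_baseChange_eq_smul_one K f μ
  apply LinearMap.ext
  intro x
  have hx : x ∈ fK.eigenspace μ := by rw [htop]; trivial
  rw [Module.End.mem_eigenspace_iff] at hx
  rw [LinearMap.smul_apply, Module.End.one_apply]
  exact hx

/-- In an absolutely irreducible residual representation, two elements of the image do not
commute. -/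
theorem exists_not_commute (ρ : ResidualGaloisRep k) (h : ρ.IsAbsolutelyIrreducible) :
    ∃ g₁ g₂ : GQ, ρ.ρ g₁ * ρ.ρ g₂ ≠ ρ.ρ g₂ * ρ.ρ g₁ := by
  classical
  by_contra hcon
  push Not at hcon
  -- every `ρ g` is a scalar
  have hscal : ∀ g : GQ, ∃ c : k, ρ.ρ g = c • (1 : Module.End k ρ.V) :=
    fun g => schur ρ h (ρ.ρ g) (fun σ => hcon g σ)
  -- so every line in the base change is stable
  let K := AlgebraicClosure k
  have hnt : Nontrivial (ρ.baseChange K).V := nontrivial_V (ρ.baseChange K)
  obtain ⟨w, hw⟩ := exists_ne (0 : (ρ.baseChange K).V)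
  have hstable : ∀ σ : GQ, ∀ x ∈ (K ∙ w), (ρ.baseChange K).ρ σ x ∈ (K ∙ w) := by
    intro σ x hx
    obtain ⟨c, hc⟩ := hscal σ
    have h1 : (ρ.baseChange K).ρ σ = (algebraMap k K c) • (1 : Module.End K (K ⊗[k] ρ.V)) := by
      show (ρ.ρ σ).baseChange K = _
      rw [hc]
      apply LinearMap.ext
      intro z
      induction z using TensorProduct.induction_on with
      | zero => simp
      | tmul a v =>
        rw [LinearMap.baseChange_tmul, LinearMap.smul_apply, Module.End.one_apply,
          LinearMap.smul_apply, Module.End.one_apply, TensorProduct.tmul_smul]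
        exact (algebraMap_smul K c _).symm
      | add x y hx hy => rw [map_add, map_add, hx, hy]
    rw [h1, LinearMap.smul_apply, Module.End.one_apply]
    exact Submodule.smul_mem _ _ hx
  rcases h (K ∙ w) hstable with h0 | h1
  · exact hw ((Submodule.span_singleton_eq_bot).mp h0)
  · have hfr : Module.finrank K (K ∙ w) = 1 := finrank_span_singleton hw
    have h2 : Module.finrank K (ρ.baseChange K).V = 2 := (ρ.baseChange K).finrank_eq
    rw [h1, finrank_top] at hfr
    omega

/-- A non-scalar endomorphism of a vector space has a vector `v` with `v, f v` linearly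
independent. -/
theorem exists_linearIndependent_of_not_scalar {V : Type} [AddCommGroup V] [Module k V]
    (f : Module.End k V) (hf : ¬ ∃ c : k, f = c • (1 : Module.End k V)) :
    ∃ v : V, LinearIndependent k ![v, f v] := by
  classical
  by_contra hcon
  push Not at hcon
  -- every vector is an eigenvector
  have heig : ∀ v : V, v ≠ 0 → ∃ c : k, f v = c • v := by
    intro v hv
    have h1 := hcon v
    rw [LinearIndependent.pair_iff] at h1
    push Not at h1
    obtain ⟨s, t, hst, hne⟩ := h1
    have ht : t ≠ 0 := by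
      rintro rfl
      have hs : s = 0 := by
        by_contra hs
        simp only [zero_smul, add_zero] at hst
        exact hv ((smul_eq_zero.mp hst).resolve_left hs)
      exact hne hs rfl
    refine ⟨-(t⁻¹ * s), ?_⟩
    have h2 : t • f v = -(s • v) := eq_neg_of_add_eq_zero_right hst
    calc f v = t⁻¹ • (t • f v) := by rw [smul_smul, inv_mul_cancel₀ ht, one_smul]
      _ = -(t⁻¹ * s) • v := by rw [h2, smul_neg, smul_smul, neg_smul]
  apply hf
  by_cases hV : ∀ v : V, v = 0
  · exact ⟨0, LinearMap.ext fun v => by rw [hV v]; simp⟩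
  push Not at hV
  obtain ⟨v₀, hv₀⟩ := hV
  obtain ⟨c₀, hc₀⟩ := heig v₀ hv₀
  refine ⟨c₀, LinearMap.ext fun w => ?_⟩
  rw [LinearMap.smul_apply, Module.End.one_apply]
  by_cases hw : w = 0
  · rw [hw]; simp
  obtain ⟨c, hc⟩ := heig w hw
  by_cases hli : LinearIndependent k ![v₀, w]
  · -- compare on `v₀ + w`
    have hsum : v₀ + w ≠ 0 := by
      intro hzero
      rw [LinearIndependent.pair_iff] at hli
      have := hli 1 1 (by simpa using hzero)
      exact one_ne_zero this.1
    obtain ⟨d, hd⟩ := heig (v₀ + w) hsum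
    rw [map_add, hc₀, hc, smul_add] at hd
    have h3 : (c₀ - d) • v₀ + (c - d) • w = 0 := by
      rw [sub_smul, sub_smul]
      linear_combination (norm := module) hd
    rw [LinearIndependent.pair_iff] at hli
    obtain ⟨h4, h5⟩ := hli _ _ h3
    rw [hc, sub_eq_zero.mp h5, ← sub_eq_zero.mp h4]
  · rw [LinearIndependent.pair_iff] at hli
    push Not at hli
    obtain ⟨s, t, hst, hne⟩ := hli
    have ht : t ≠ 0 := by
      rintro rfl
      have hs : s = 0 := by
        by_contra hs
        simp only [zero_smul, add_zero] at hst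
        exact hv₀ ((smul_eq_zero.mp hst).resolve_left hs)
      exact hne hs rfl
    have hw' : w = (-(t⁻¹ * s)) • v₀ := by
      have h2 : t • w = -(s • v₀) := eq_neg_of_add_eq_zero_right hst
      calc w = t⁻¹ • (t • w) := by rw [smul_smul, inv_mul_cancel₀ ht, one_smul]
        _ = -(t⁻¹ * s) • v₀ := by rw [h2, smul_neg, smul_smul, neg_smul]
    rw [hw', map_smul, hc₀, smul_comm]

/-- Matrix form of Schur's lemma, for an arbitrary basis. -/
theorem schur_matrix (ρ : ResidualGaloisRep k) (h : ρ.IsAbsolutelyIrreducible)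
    (b : Module.Basis (Fin 2) k ρ.V) (X : Matrix (Fin 2) (Fin 2) k)
    (hX : ∀ σ : GQ, X * LinearMap.toMatrix b b (ρ.ρ σ) = LinearMap.toMatrix b b (ρ.ρ σ) * X) :
    ∃ c : k, X = c • (1 : Matrix (Fin 2) (Fin 2) k) := by
  classical
  have hcomm : ∀ σ : GQ, Matrix.toLin b b X * ρ.ρ σ = ρ.ρ σ * Matrix.toLin b b X := by
    intro σ
    apply (LinearMap.toMatrix b b).injective
    rw [LinearMap.toMatrix_mul, LinearMap.toMatrix_mul, LinearMap.toMatrix_toLin]
    exact hX σ
  obtain ⟨c, hc⟩ := schur ρ h (Matrix.toLin b b X) hcomm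
  refine ⟨c, ?_⟩
  have h1 := congrArg (LinearMap.toMatrix b b) hc
  rw [LinearMap.toMatrix_toLin, map_smul, LinearMap.toMatrix_one] at h1
  exact h1

/-- **Gauge data** extracted from absolute irreducibility: a basis `b = (v, ρ(g₁) v)` in which
`ρ(g₁)` is in companion form (first column `(0,1)ᵀ`), the commutant of the image is the scalars,
and a second element `g₂` together with an index `(i,j)` at which the commutator
`[ρ(g₁), ρ(g₂)]` does not vanish. -/
theorem exists_gauge_data (ρ : ResidualGaloisRep k) (h : ρ.IsAbsolutelyIrreducible) :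
    ∃ (b : Module.Basis (Fin 2) k ρ.V) (g₁ g₂ : GQ) (i j : Fin 2),
      (∀ X : Matrix (Fin 2) (Fin 2) k,
        (∀ σ : GQ, X * LinearMap.toMatrix b b (ρ.ρ σ) = LinearMap.toMatrix b b (ρ.ρ σ) * X) →
          ∃ c : k, X = c • (1 : Matrix (Fin 2) (Fin 2) k)) ∧
      LinearMap.toMatrix b b (ρ.ρ g₁) 0 0 = 0 ∧
      LinearMap.toMatrix b b (ρ.ρ g₁) 1 0 = 1 ∧
      (LinearMap.toMatrix b b (ρ.ρ g₁) * LinearMap.toMatrix b b (ρ.ρ g₂)
        - LinearMap.toMatrix b b (ρ.ρ g₂) * LinearMap.toMatrix b b (ρ.ρ g₁)) i j ≠ 0 := by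
  classical
  obtain ⟨g₁, g₂, hne⟩ := exists_not_commute ρ h
  have hns : ¬ ∃ c : k, ρ.ρ g₁ = c • (1 : Module.End k ρ.V) := by
    rintro ⟨c, hc⟩
    apply hne
    rw [hc]
    apply LinearMap.ext
    intro x
    simp
  obtain ⟨v, hv⟩ := exists_linearIndependent_of_not_scalar (ρ.ρ g₁) hns
  let b : Module.Basis (Fin 2) k ρ.V :=
    basisOfLinearIndependentOfCardEqFinrank hv (by rw [ρ.finrank_eq, Fintype.card_fin])
  have hb : ⇑b = ![v, ρ.ρ g₁ v] := coe_basisOfLinearIndependentOfCardEqFinrank hv _
  have hb0 : b 0 = v := by rw [hb]; rfl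
  have hb1 : b 1 = ρ.ρ g₁ v := by rw [hb]; rfl
  have hcol : ρ.ρ g₁ (b 0) = b 1 := by rw [hb0, hb1]
  have hcomm : ∃ i j : Fin 2, (LinearMap.toMatrix b b (ρ.ρ g₁) * LinearMap.toMatrix b b (ρ.ρ g₂)
        - LinearMap.toMatrix b b (ρ.ρ g₂) * LinearMap.toMatrix b b (ρ.ρ g₁)) i j ≠ 0 := by
    by_contra hcon
    push Not at hcon
    apply hne
    apply (LinearMap.toMatrix b b).injective
    rw [LinearMap.toMatrix_mul, LinearMap.toMatrix_mul]
    apply sub_eq_zero.mp
    ext i j
    exact hcon i j
  obtain ⟨i, j, hij⟩ := hcomm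
  refine ⟨b, g₁, g₂, i, j, fun X hX => schur_matrix ρ h b X hX, ?_, ?_, hij⟩
  · rw [LinearMap.toMatrix_apply, hcol, Module.Basis.repr_self]
    simp
  · rw [LinearMap.toMatrix_apply, hcol, Module.Basis.repr_self]
    simp

end Fermat.Agent.S53.H34
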