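import Fermat.Agent.S53.Defs
import Fermat.Agent.S53.H34.Schur

set_option autoImplicit false

namespace Fermat.Agent.S53.H34

open Fermat.Agent.S53

/-- Package S of the S53 interface: gauge data from absolute irreducibility, phrased with
`rbarOf`. -/
theorem exists_gauge_basis {k : Type} [Field k] (ρ : ResidualGaloisRep k)
    (h : ρ.IsAbsolutelyIrreducible) :
    ∃ (b : Module.Basis (Fin 2) k ρ.V) (g₁ g₂ : GQ) (i j : Fin 2),
      (∀ X : M2 k, (∀ σ, X * rbarOf ρ b σ = rbarOf ρ b σ * X) →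
        ∃ c : k, X = Matrix.scalar (Fin 2) c) ∧
      rbarOf ρ b g₁ 0 0 = 0 ∧ rbarOf ρ b g₁ 1 0 = 1 ∧
      (rbarOf ρ b g₁ * rbarOf ρ b g₂ - rbarOf ρ b g₂ * rbarOf ρ b g₁) i j ≠ 0 := by
  obtain ⟨b, g₁, g₂, i, j, hcomm, h00, h10, hij⟩ := exists_gauge_data ρ h
  refine ⟨b, g₁, g₂, i, j, fun X hX => ?_, h00, h10, hij⟩
  obtain ⟨c, hc⟩ := hcomm X hX
  exact ⟨c, by rw [hc, Matrix.smul_one_eq_diagonal]; rfl⟩

end Fermat.Agent.S53.H34
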